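import Fermat.Agent.Carayol.Rational
import Fermat.Agent.Carayol.Statement
import Fermat.Agent.Carayol.Inertia
import Fermat.Agent.FF.Along

/-!
# Norms of rational functions with divisor divisible by `m`

A function with fixed coefficients and divisor `m D`, where `D` becomes principal after pushing
forward, has as norm a fixed constant times the `m`-th power of a function with fixed coefficients.
Also: constants times `m`-th powers are stable under the combination of partial norms.
-/

set_option autoImplicit false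

noncomputable section

namespace Fermat.Agent.Carayol

open ModularCurve AlgebraicCurve
open Fermat.Agent.Arith

section Norm

variable {A : ValuationSubring QBar} {N N' : ℕ} [NeZero N] [NeZero N']

local notation "FN" => modularFunctionFieldBar N
local notation "FN'" => modularFunctionFieldBar N'

/-- The norm of a fixed function whose divisor is `m` times one with principal push forward. -/
theorem exists_norm_root (ψ : FN' →ₐ[QBar] FN)
    (hψ : ∀ (σ : QBar ≃ₐ[ℚ] QBar) (z : FN'),
      ψ (arithmeticGalois (modularFunctionFieldFull N') σ • z) =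
        arithmeticGalois (modularFunctionFieldFull N) σ • ψ z)
    {m : ℕ} [NeZero m] {D : Divisor QBar FN} {f : FN} (hf0 : f ≠ 0)
    (hfix : CoeffFixed A (f : LaurentSeries QBar))
    (hord : ∀ P : Place QBar FN, P.ord f = (m : ℤ) * D P)
    (hprin : (Divisor.pushforwardAlong ψ (FF.isIntegralAlong _) D).IsPrincipal) :
    ∃ (c : inertiaField A) (g : FN'), c ≠ 0 ∧ g ≠ 0 ∧ CoeffFixed A (g : LaurentSeries QBar) ∧
      (letI := algebraAlong ψ; Algebra.norm FN' f) = algebraMap QBar FN' (c : QBar) * g ^ m := by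
  letI := algebraAlong ψ
  haveI := isScalarTower_along ψ
  haveI : Module.Finite FN' FN := FF.finiteAlong ψ
  set g := Algebra.norm FN' f with hg
  have hg0 : g ≠ 0 := Algebra.norm_ne_zero_iff.mpr hf0
  have hgfix : CoeffFixed A (g : LaurentSeries QBar) := by
    refine coeffFixed_iff.mpr fun σ hσ => ?_
    let e₁ : FN' ≃+* FN' :=
      SemilinearAut.toRingAut (arithmeticGalois (modularFunctionFieldFull N') σ)
    let e₂ : FN ≃+* FN := SemilinearAut.toRingAut (arithmeticGalois (modularFunctionFieldFull N) σ)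
    have h := Algebra.norm_eq_of_equiv_equiv e₁ e₂ (RingHom.ext fun z => hψ σ z) f
    rw [show e₂ f = f from coeffFixed_iff.mp hfix σ hσ] at h
    show e₁ g = g
    conv_lhs => rw [hg, h]
    exact e₁.apply_symm_apply _
  have hD : ∀ P : Place QBar FN, ((m : ℤ) • D) P = P.ord f := fun P => by
    rw [Finsupp.smul_apply, smul_eq_mul, hord]
  have hpush : ∀ v : Place QBar FN',
      (m : ℤ) * Divisor.pushforwardAlong ψ (FF.isIntegralAlong _) D v = v.ord g := fun v => by
    have h := FF.normFormulaAlong ψ (FF.finiteAlong ψ) f hf0 _ hD v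
    rw [← smul_eq_mul, ← Finsupp.smul_apply, ← map_zsmul]
    exact h
  obtain ⟨g₀, hg₀, hg₀ord⟩ := hprin
  obtain ⟨b, hb⟩ := exists_eq_mul_of_ord hg0 (pow_ne_zero m hg₀) fun v => by
    rw [JacTorsion.ord_pow, ← hpush, hg₀ord]
  set l := (g₀ : LaurentSeries QBar).leadingCoeff with hl
  have hl0 : l ≠ 0 := HahnSeries.leadingCoeff_ne_zero.mpr fun h => hg₀ (Subtype.ext h)
  have hlA : algebraMap QBar FN' l⁻¹ ≠ 0 := (_root_.map_ne_zero _).mpr (inv_ne_zero hl0)
  set g₁ : FN' := algebraMap QBar FN' l⁻¹ * g₀ with hg₁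
  have hg₁0 : g₁ ≠ 0 := mul_ne_zero hlA hg₀
  have hlead : (g₁ : LaurentSeries QBar).leadingCoeff = 1 := by
    rw [hg₁, leadingCoeff_algebraMap_mul, inv_mul_cancel₀ hl0]
  have heq : g = algebraMap QBar FN' (b * l ^ m) * g₁ ^ m := by
    rw [hb, hg₁, mul_pow, ← map_pow, ← mul_assoc, ← map_mul, inv_pow,
      mul_assoc b, mul_inv_cancel₀ (pow_ne_zero m hl0), mul_one]
  have hc0 : b * l ^ m ≠ 0 := fun h => hg0 (by rw [heq, h, map_zero, zero_mul])
  have hc : b * l ^ m ∈ inertiaField A := by
    have h1 : (g : LaurentSeries QBar).leadingCoeff = b * l ^ m := by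
      rw [heq, leadingCoeff_algebraMap_mul,
        show ((g₁ ^ m : FN') : LaurentSeries QBar) = (g₁ : LaurentSeries QBar) ^ m from rfl]
      have hpowlead : ∀ k : ℕ, ((g₁ : LaurentSeries QBar) ^ k).leadingCoeff = 1 := fun k => by
        induction k with
        | zero => simp
        | succ k ih => rw [pow_succ, HahnSeries.leadingCoeff_mul, ih, hlead, one_mul]
      rw [hpowlead, mul_one]
    rw [← h1, HahnSeries.leadingCoeff_eq]
    exact hgfix.coeff_mem _
  refine ⟨⟨_, hc⟩, g₁, fun h => hc0 (congrArg Subtype.val h), hg₁0,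
    coeffFixed_iff.mpr fun σ hσ => ?_, heq⟩
  set τ := arithmeticGalois (modularFunctionFieldFull N') σ
  have h1 : τ • g₁ ≠ 0 := (_root_.map_ne_zero (SemilinearAut.toRingAut τ)).mpr hg₁0
  have hpow : (τ • g₁) ^ m = g₁ ^ m := by
    have h2 := congrArg (SemilinearAut.toRingAut τ) heq
    rw [map_mul, map_pow, show SemilinearAut.toRingAut τ g = g from coeffFixed_iff.mp hgfix σ hσ,
      show SemilinearAut.toRingAut τ (algebraMap QBar FN' (b * l ^ m)) =
        algebraMap QBar FN' (σ (b * l ^ m)) from arithmeticRingAut_algebraMap _ σ _,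
      (mem_inertiaField A).mp hc σ hσ] at h2
    exact mul_left_cancel₀ ((_root_.map_ne_zero _).mpr hc0) (h2.symm.trans heq)
  obtain ⟨d, hd⟩ := exists_eq_mul_of_ord h1 hg₁0 fun v => by
    have h3 := congrArg (fun z => v.ord z) hpow
    simp only [JacTorsion.ord_pow] at h3
    exact mul_left_cancel₀ (Nat.cast_ne_zero.mpr (NeZero.ne m)) h3
  exact eq_of_leadingCoeff hd hg₁0 (by rw [leadingCoeff_smul, hlead, map_one])

end Norm

section Comb

open Matrix

variable {K Ω : Type*} [Field K] [Field Ω] [Algebra K Ω] [DecidableEq Ω]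

/-- Constants times `m`-th powers. -/
def constPow (K Ω : Type*) [Field K] [Field Ω] [Algebra K Ω] (m : ℕ) : Subgroup Ωˣ :=
  (MonoidHom.coprod (Units.map (algebraMap K Ω).toMonoidHom) (powMonoidHom m)).range

theorem mem_constPow {m : ℕ} {z : Ωˣ} : z ∈ constPow K Ω m ↔
    ∃ (κ : Kˣ) (γ : Ωˣ), z = Units.map (algebraMap K Ω).toMonoidHom κ * γ ^ m :=
  ⟨fun ⟨⟨κ, γ⟩, h⟩ => ⟨κ, γ, h.symm⟩, fun ⟨κ, γ, h⟩ => ⟨⟨κ, γ⟩, h.symm⟩⟩

namespace TateLevel

variable {L : TateLevel K Ω}

theorem transl_mem_constPow {m : ℕ} {z : Ωˣ} (g : GL (Fin 2) (ZMod L.frame.q))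
    (h : z ∈ constPow K Ω m) : L.transl z g ∈ constPow K Ω m := by
  obtain ⟨κ, γ, rfl⟩ := mem_constPow.mp h
  refine mem_constPow.mpr ⟨κ, L.transl γ g, ?_⟩
  rw [transl, transl, map_mul, map_pow]
  congr 1
  exact Units.ext ((L.act g).commutes κ)

/-- If both partial norms are constants times `m`-th powers then so is their combination. -/
theorem lam_mem_constPow {Ω : Type} [Field Ω] [Algebra K Ω] [DecidableEq Ω] {L : TateLevel K Ω}
    {m : ℕ} {f : Ωˣ} (hp : ∏ a, L.transl f (uPlus a) ∈ constPow K Ω m)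
    (hm : ∏ a, L.transl f (uMinus a) ∈ constPow K Ω m) :
    L.lam (torusComb L.frame.q) (L.transl f) ∈ constPow K Ω m := by
  rw [lam, sum_torusComb (fun g => Additive.ofMul (L.transl f g))]
  set H := (constPow K Ω m).toAddSubgroup
  show combOp (fun g => Additive.ofMul (L.transl f g)) ∈ H
  have key : ∀ (x : GL (Fin 2) (ZMod L.frame.q)) (u : ZMod L.frame.q → GL (Fin 2) (ZMod L.frame.q)),
      ∏ a, L.transl f (u a) ∈ constPow K Ω m →
      ∑ a, Additive.ofMul (L.transl f (x * u a)) ∈ H := by
    intro x u hu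
    show ∏ a, L.transl f (x * u a) ∈ constPow K Ω m
    simp only [transl_mul_apply]
    have h := transl_mem_constPow (L := L) x hu
    rw [transl, map_prod] at h
    exact h
  have key1 : ∀ u : ZMod L.frame.q → GL (Fin 2) (ZMod L.frame.q),
      ∏ a, L.transl f (u a) ∈ constPow K Ω m →
      ∑ a, Additive.ofMul (L.transl f (u a)) ∈ H := fun u h => h
  exact H.sub_mem (H.add_mem (H.zsmul_mem (H.add_mem (key1 _ hp) (key1 _ hm)) _)
    (H.zsmul_mem (H.add_mem (key _ _ hp) (key _ _ hm)) _))
    (H.zsmul_mem (H.sum_mem fun x _ => H.add_mem (key _ _ hm) (key _ _ hp)) _)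

end TateLevel

end Comb

end Fermat.Agent.Carayol

end
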