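import Fermat.Agent.Carayol.Descend
import Fermat.Agent.Carayol.NormRoot
import Fermat.Agent.Carayol.Rigid
import Fermat.Agent.Carayol.Omega.CuspInst

/-!
# The bound on new torsion classes fixed by inertia

`FixedNewTorsionBound q M` for `q` prime and not dividing `M`.
-/

set_option autoImplicit false
set_option linter.unusedSectionVars false

noncomputable section

namespace Fermat.Agent.Carayol

open ModularCurve AlgebraicCurve Matrix
open Fermat.Agent.Arith Fermat.Agent.Carayol.Omega

/-- The inclusion of the rational field into series. -/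
def ratIncl (A : ValuationSubring QBar) (N : ℕ) : ratField A N →+* LaurentSeries QBar :=
  (ratField A N).val.toRingHom

theorem ratIncl_apply {A : ValuationSubring QBar} {N : ℕ} (x : ratField A N) :
    ratIncl A N x = (x : LaurentSeries QBar) := rfl

theorem algebraMap_inertiaField_eq_C {A : ValuationSubring QBar} (c : inertiaField A) :
    algebraMap (inertiaField A) (LaurentSeries QBar) c = HahnSeries.C (c : QBar) := by
  rw [IsScalarTower.algebraMap_apply (inertiaField A) QBar (LaurentSeries QBar),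
    algebraMap_laurentSeries_eq_single, HahnSeries.C_apply]
  rfl

theorem ratIncl_algebraMap {A : ValuationSubring QBar} {N : ℕ} (c : inertiaField A) :
    ratIncl A N (algebraMap (inertiaField A) (ratField A N) c) = HahnSeries.C (c : QBar) :=
  algebraMap_inertiaField_eq_C c

theorem ratField_induction {A : ValuationSubring QBar} {N : ℕ} (P : LaurentSeries QBar → Prop)
    (hgen : ∀ s ∈ divisorExpansionsC QBar N, P s) (hC : ∀ c : inertiaField A, P (HahnSeries.C (c : QBar)))
    (hadd : ∀ a b, P a → P b → P (a + b)) (hinv : ∀ a, P a → P a⁻¹)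
    (hmul : ∀ a b, P a → P b → P (a * b)) {x : LaurentSeries QBar} (hx : x ∈ ratField A N) : P x := by
  induction hx using IntermediateField.adjoin_induction with
  | mem z hz => exact hgen z hz
  | algebraMap c => rw [algebraMap_inertiaField_eq_C]; exact hC c
  | add a b _ _ ha hb => exact hadd a b ha hb
  | inv a _ ha => exact hinv a ha
  | mul a b _ _ ha hb => exact hmul a b ha hb

attribute [local instance 2000] Omega.serAlg

/-- The rational field, for the algebra structure of the field of level `q n`. -/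
abbrev serField (A : ValuationSubring QBar) (N : ℕ) :
    IntermediateField (inertiaField A) (LaurentSeries QBar) :=
  IntermediateField.adjoin (inertiaField A) (divisorExpansionsC QBar N)

theorem mem_serField {A : ValuationSubring QBar} {N : ℕ} {x : LaurentSeries QBar}
    (hx : x ∈ ratField A N) : x ∈ serField A N :=
  ratField_induction (fun x => x ∈ serField A N) (fun _ h => IntermediateField.subset_adjoin _ _ h)
    (fun c => by
      have h := (serField A N).algebraMap_mem c
      rw [algebraMap_laurent_comp] at h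
      exact h)
    (fun _ _ => add_mem) (fun _ => inv_mem) (fun _ _ => mul_mem) hx

theorem mem_bar_of_mem_serField {A : ValuationSubring QBar} {N : ℕ} [NeZero N]
    {x : LaurentSeries QBar} (hx : x ∈ serField A N) : x ∈ modularFunctionFieldBar N := by
  induction hx using IntermediateField.adjoin_induction with
  | mem z hz =>
    rw [modularFunctionFieldBar, ModFun.laurentBaseChange_eq_fullC]
    exact IntermediateField.subset_adjoin _ _ hz
  | algebraMap c =>
    rw [algebraMap_laurent_comp, HahnSeries.C_apply, ← algebraMap_laurentSeries_eq_single]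
    exact (modularFunctionFieldBar N).algebraMap_mem _
  | add a b _ _ ha hb => exact add_mem ha hb
  | inv a _ ha => exact inv_mem ha
  | mul a b _ _ ha hb => exact mul_mem ha hb

variable {q M n : ℕ} [NeZero q] [NeZero M] [NeZero n] [NeZero (q * n)] [NeZero (q * M)]
  [NeZero (q * M * q)]

open TateLevel in
set_option maxHeartbeats 3200000 in
/-- The core of the bound, for a fixed divisor and its rational function. -/
theorem exists_fun_pow (hq : q.Prime) (hM : M ∣ n) (hcop : q.Coprime n) (L : ℕ)
    (hL : L = 7 ∨ L = 9) (hLn : L ∣ n) (E : Omega.Setup (q * n) QBar)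
    {A : ValuationSubring QBar} (hA : A.LiesOverPrime q)
    {m : ℕ} [NeZero m] (hmq : m.Coprime q)
    {D : Divisor QBar (modularFunctionFieldBar (q * M * q))}
    (hDfix : ∀ σ ∈ A.inertiaSubgroupIn ℚ,
      arithmeticGalois (modularFunctionFieldFull (q * M * q)) σ • D = D)
    {f : modularFunctionFieldBar (q * M * q)} (hf0 : f ≠ 0)
    (hfix : CoeffFixed A (f : LaurentSeries QBar))
    (hord : ∀ P, P.ord f = (m : ℤ) * D P)
    (hα : (Divisor.pushforwardAlong (heckeAlphaBar QBar (q * M) q)
      (FF.isIntegralAlong _) D).IsPrincipal)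
    (hβ : (Divisor.pushforwardAlong (heckeBetaBar QBar (q * M) q)
      (FF.isIntegralAlong _) D).IsPrincipal)
    [Fact q.Prime] :
    ((glueExp (torusComb q) * q) • D).IsPrincipal := by
  classical
  let k := inertiaField A
  have : IsGalois k QBar := IsGalois.tower_top_of_isGalois ℚ k QBar
  have hn : ¬ q ∣ n := hq.coprime_iff_not_dvd.mp hcop
  have hgal := fun d => exists_aut_inertiaField hA hq hn E.isPrimitiveRoot d
  let T := E.tateLevel k hcop hq L hL hLn hgal
  let U : UnramBase k T.frame.q := inertialBase hA hq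
  let C := E.cuspEmb hA hq hcop L hL hLn hgal
  have hact : ∀ g : GL (Fin 2) (ZMod q),
      E.Moves k (T.act g) (liftMat hcop (g : Matrix (Fin 2) (Fin 2) (ZMod q))) :=
    fun g => E.act_moves k hq L hL hLn hcop hgal g
  have hP : GoodPt (markLabel hcop L) := by
    have hord' := nsmul_markLabel_eq_zero_iff hcop (NeZero.ne n) hLn
    exact ⟨fun h => by have := Nat.le_of_dvd (by norm_num) ((hord' 2).mp h); omega,
      fun h => by have := Nat.le_of_dvd (by norm_num) ((hord' 3).mp h); omega⟩
  have hζ : ∃ c : k, algebraMap k QBar c = E.ζ ^ q :=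
    ⟨⟨E.ζ ^ q, (mem_inertiaField A).mpr fun σ hσ => inertia_root hA hq hσ (m := n)
      (by rw [← pow_mul, E.isPrimitiveRoot.pow_eq_one]) hn⟩, rfl⟩
  -- the function in the field of level `q n`
  have hfR : (f : LaurentSeries QBar) ∈ ratField A (q * M * q) := mem_ratField f.2 hfix
  have hmem : ∀ x : LaurentSeries QBar, x ∈ ratField A (q * M * q) →
      qExpand QBar n x ∈ E.field k := fun x hx => E.qExpand_mem hP hcop hq hM k (mem_serField hx)
  let ι : ratField A (q * M * q) →+* E.field k :=
    ((qExpand QBar n).comp (ratIncl A (q * M * q))).codRestrict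
      (E.field k).toSubfield fun x => hmem _ x.2
  have hf' : ι ⟨_, hfR⟩ ≠ 0 := (_root_.map_ne_zero ι).mpr fun h =>
    hf0 (Subtype.ext (congrArg (ratIncl A (q * M * q)) h |>.trans (map_zero _)))
  set f' : (E.field k)ˣ := Units.mk0 _ hf'
  -- invariance under the torus
  have hT : T.FixedBy (torusComb q) f' := by
    rintro t ⟨⟨a, d⟩, rfl⟩
    refine Units.ext ?_
    show T.act (diagElt a d) (f' : E.field k) = _
    obtain ⟨y, hy, hy'⟩ := E.fixed_level hP hcop hq hM k (T.act (diagElt a d)) (q * M * q)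
      (qExpand QBar n) (Setup.qExpand_C' n) 1 (by rw [one_mul])
      (fun x => by rw [ModularCurve.qExpand_one_apply])
      (fun d' hd' hdvd z hz => E.fixed_diag hP hcop hq hM hdvd (g := diagElt a d) (show (diagElt a d : Matrix (Fin 2) (Fin 2) (ZMod q)) 0 1 = 0 from rfl)
        (show (diagElt a d : Matrix (Fin 2) (Fin 2) (ZMod q)) 1 0 = 0 from rfl) (hact _) (hz.trans (congrArg _ (qExpand_congr (one_mul d') _))))
      (mem_serField hfR)
    obtain rfl : y = (f' : E.field k) := Subtype.ext hy
    exact hy'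
  have hpl : Places k m f' := fun v hv => by
    refine dvd_log_valuation hDfix hf0 hord hfR (v.comap ι) fun c hc => ?_
    refine Eq.trans (congrArg v (Subtype.ext ?_)) (hv c hc)
    show qExpand QBar n (ratIncl A (q * M * q) _) = algebraMap k (LaurentSeries QBar) c
    rw [ratIncl_algebraMap, Setup.qExpand_C', algebraMap_laurent_comp]
    rfl
  -- the norms
  have hnorm : ∀ (ψ : modularFunctionFieldBar (q * M) →ₐ[QBar] modularFunctionFieldBar (q * M * q))
      (u : ZMod q → GL (Fin 2) (ZMod q)) (_ : finrankAlong QBar ψ = q)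
      (_ : ∀ (σ : QBar ≃ₐ[ℚ] QBar) z,
        ψ (arithmeticGalois (modularFunctionFieldFull (q * M)) σ • z) =
          arithmeticGalois (modularFunctionFieldFull (q * M * q)) σ • ψ z)
      (_ : (Divisor.pushforwardAlong ψ (FF.isIntegralAlong _) D).IsPrincipal)
      (_ : ∀ a b, u (a + b) = u a * u b)
      (_ : ∀ a, (u a : Matrix (Fin 2) (Fin 2) (ZMod q)).det = 1)
      (_ : ∀ a (e : E.field QBar ≃ₐ[QBar] E.field QBar),
        E.Moves QBar e (liftMat hcop (u a : Matrix (Fin 2) (Fin 2) (ZMod q))) →
        ∀ z, ∃ y : E.field QBar, (y : LaurentSeries QBar) =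
          qExpand QBar n (ψ z : LaurentSeries QBar) ∧ e y = y)
      (θ : modularFunctionFieldBar (q * M * q))
      (_ : ∀ a (e : E.field QBar ≃ₐ[QBar] E.field QBar),
        E.Moves QBar e (liftMat hcop (u a : Matrix (Fin 2) (Fin 2) (ZMod q))) →
        ∀ y : E.field QBar, (y : LaurentSeries QBar) = qExpand QBar n (θ : LaurentSeries QBar) →
          e y = y → a = 0),
      ∃ (κ : kˣ) (γ : (E.field k)ˣ),
        ∏ a, T.transl f' (u a) = Units.map (algebraMap k (E.field k)).toMonoidHom κ * γ ^ m ∧
        ∃ z ∈ ratField A (q * M * q), qExpand QBar n z = ((γ : E.field k) : LaurentSeries QBar) := by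
    intro ψ u hdeg hψ hprin hu hdet hufix θ hθ
    obtain ⟨c, g, hc, hg0, hgfix, heq⟩ := exists_norm_root ψ hψ hf0 hfix hord hprin
    have hψg : ((ψ g : _) : LaurentSeries QBar) ∈ ratField A (q * M * q) :=
      mem_ratField (ψ g).2 (coeffFixed_iff.mpr fun σ hσ => by
        rw [← hψ, coeffFixed_iff.mp hgfix σ hσ])
    have hγ : ι ⟨_, hψg⟩ ≠ 0 := (_root_.map_ne_zero ι).mpr fun h =>
      (_root_.map_ne_zero ψ).mpr hg0 (Subtype.ext (congrArg (ratIncl A (q * M * q)) h |>.trans (map_zero _)))
    refine ⟨Units.mk0 c hc, Units.mk0 _ hγ, Units.ext (Subtype.ext ?_), _, hψg, rfl⟩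
    have h := E.qExpand_norm hP hcop hq hM ψ hdeg u hu hdet hufix θ hθ k
      (fun a => T.act (u a)) (fun a => hact _) f (f' : E.field k) rfl
    simp only [Units.coe_prod, coe_transl]
    rw [SubmonoidClass.coe_finsetProd, ← h, heq, map_mul, map_pow, AlgHom.commutes]
    show qExpand QBar n (algebraMap QBar (LaurentSeries QBar) (c : QBar) * _ ^ m) =
      algebraMap k (LaurentSeries QBar) c * _ ^ m
    rw [map_mul, map_pow, algebraMap_laurent_comp, algebraMap_laurent_comp, Setup.qExpand_C']
    rfl
  obtain ⟨hdα, hdβ⟩ := finrankAlong_square q M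
  obtain ⟨κ₁, γ₁, hplus, z₁, hz₁, hz₁e⟩ := hnorm (heckeAlphaBar QBar (q * M) q) uPlus hdα
    (fun σ z => Subtype.ext (by
      rw [coe_arithmeticGalois_smul, coe_heckeAlphaBar, coe_heckeAlphaBar,
        coe_arithmeticGalois_smul]))
    hα uPlus_add det_uPlus
    (fun a e he z => by
      rw [coe_heckeAlphaBar]
      exact E.fixed_level hP hcop hq hM QBar e (q * M) (qExpand QBar n) (Setup.qExpand_C' n) 1
        (by rw [one_mul]; exact dvd_mul_right _ q)
        (fun x => by rw [ModularCurve.qExpand_one_apply])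
        (fun d _ hd y hy => E.fixed_uPlus hP hcop hq hM hd a he
          (hy.trans (congrArg _ (qExpand_congr (one_mul d) _))))
        (Setup.mem_adjoin_bar (q * M) z))
    (Mazur.Eisenstein.jAt (q * M * q) (q * q) (mul_dvd_mul (dvd_mul_right q M) dvd_rfl))
    (fun a e he y hy => E.eq_zero_of_uPlus_fix hP hcop he hy)
  obtain ⟨κ₂, γ₂, hminus, -⟩ := hnorm (heckeBetaBar QBar (q * M) q) uMinus hdβ
    (fun σ z => Subtype.ext (by
      rw [coe_arithmeticGalois_smul, coe_heckeBetaBar, coe_heckeBetaBar,
        coe_arithmeticGalois_smul, coeffMap_qExpand]))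
    hβ uMinus_add det_uMinus
    (fun a e he z => by
      rw [coe_heckeBetaBar]
      exact E.fixed_level hP hcop hq hM QBar e (q * M)
        ((qExpand QBar n).comp (qExpand QBar q))
        (fun c => by rw [RingHom.comp_apply, Setup.qExpand_C', Setup.qExpand_C']) q
        (by rw [mul_comm q (q * M)]) (fun x => rfl)
        (fun d _ hd y hy => E.fixed_uMinus hP hcop hq hM
          ((mul_dvd_mul_left q hd).trans (by rw [mul_comm q (q * M)])) (dvd_mul_right q d) a he hy)
        (Setup.mem_adjoin_bar (q * M) z))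
    (Mazur.Eisenstein.jAt (q * M * q) 1 (one_dvd _))
    (fun a e he y hy => E.eq_zero_of_uMinus_fix hP hcop he
      (hy.trans (congrArg _ (ModularCurve.qExpand_one_apply _))))
  obtain ⟨κ, γ, hlam⟩ := mem_constPow.mp (TateLevel.lam_mem_constPow (L := T) (m := m)
    (mem_constPow.mpr ⟨κ₁, γ₁, hplus⟩) (mem_constPow.mpr ⟨κ₂, γ₂, hminus⟩))
  have hmU : IsUnit (m : U.W) := TateLevel.isUnit_natCast (L := T) hmq
  obtain ⟨κ', h, hpow⟩ := exists_const_mul_pow C (torusComb q) hmU hT hpl hlam
  obtain ⟨ω, hω, -⟩ := SerBase.exists_root_of_unity U hmU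
  set c₀ := glueExp (torusComb q)
  -- the descent
  have hcκ : ∀ c : k, qExpand QBar n (algebraMap k (LaurentSeries QBar) c) =
      algebraMap k (LaurentSeries QBar) c := fun c => by
    rw [algebraMap_laurent_comp, Setup.qExpand_C']
  have hroot : ∀ e : E.field k ≃ₐ[k] E.field k, algebraMap k (E.field k) κ' * e h ^ m =
      e f' ^ c₀ := fun e => by
    rw [← map_pow e, ← map_pow e, ← e.commutes, ← map_mul, ← Units.val_pow_eq_pow_val f',
      show f' ^ c₀ = _ from hpow]
    rfl
  obtain ⟨z, hz, hze⟩ := E.exists_descended hP hcop hq hM k hζ (fun g => T.act g) hact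
    (hω.map_of_injective (f := U.W.subtype) Subtype.val_injective) h.ne_zero
    ⟨algebraMap k (LaurentSeries QBar) (κ'⁻¹ : kˣ) * (f : LaurentSeries QBar) ^ c₀,
      mul_mem (IntermediateField.algebraMap_mem _ _) (pow_mem (mem_serField hfR) _), by
      rw [map_mul, map_pow, hcκ]
      have h1 : ((h : E.field k)) ^ m = algebraMap k (E.field k) (κ'⁻¹ : kˣ) * (f' : E.field k) ^ c₀ := by
        have := hroot 1
        simp only [AlgEquiv.one_apply] at this
        rw [← this, ← mul_assoc, ← map_mul, Units.inv_mul, map_one, one_mul]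
      rw [h1]
      rfl⟩
  set Pr : E.field k := ∏ a, T.act (uPlus a) h with hPr
  have hPr0 : Pr ≠ 0 := Finset.prod_ne_zero_iff.mpr fun a _ => (_root_.map_ne_zero _).mpr h.ne_zero
  have hprod : algebraMap k (E.field k) κ' ^ q * Pr ^ m =
      (algebraMap k (E.field k) κ₁ * (γ₁ : E.field k) ^ m) ^ c₀ := by
    have h1 := congrArg (fun x : (E.field k)ˣ => (x : E.field k)) hplus
    simp only [Units.coe_prod, coe_transl] at h1
    change _ = algebraMap k (E.field k) κ₁ * (γ₁ : E.field k) ^ m at h1
    rw [← h1, ← Finset.prod_pow _ c₀, ← Finset.prod_pow _ m]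
    refine Eq.trans ?_ (Finset.prod_congr rfl fun a _ => hroot (T.act (uPlus a)))
    rw [Finset.prod_mul_distrib, Finset.prod_const, Finset.card_univ, ZMod.card]
    rfl
  have hmain : (f' : E.field k) ^ (c₀ * q) = algebraMap k (E.field k) κ₁ ^ c₀ *
      (((γ₁ : E.field k) ^ c₀) * ((h : E.field k) ^ q / Pr)) ^ m := by
    have h1 := congrArg (· ^ q) (hroot 1)
    simp only [AlgEquiv.one_apply, ← pow_mul] at h1
    rw [← h1, mul_pow _ _ m, div_pow, ← mul_assoc, ← mul_div_assoc,
      eq_div_iff (pow_ne_zero m hPr0)]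
    linear_combination ((h : E.field k) ^ (q * m)) * hprod
  obtain ⟨w, hw⟩ : ∃ w : modularFunctionFieldBar (q * M * q),
      (w : LaurentSeries QBar) = z₁ ^ c₀ * z :=
    ⟨⟨_, mem_bar_of_mem_serField (mul_mem (pow_mem (mem_serField hz₁) c₀) hz)⟩, rfl⟩
  have hfw : f ^ (c₀ * q) =
      algebraMap QBar _ ((κ₁ : k) : QBar) ^ c₀ * w ^ m := by
    refine Subtype.ext (qExpand_injective n ?_)
    have h1 := congrArg (fun x : E.field k => (x : LaurentSeries QBar)) hmain
    push_cast at h1 ⊢
    rw [hw, map_mul, map_pow, map_pow, map_pow, map_mul, map_pow, hz₁e, hze]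
    show _ = qExpand QBar n (algebraMap QBar (LaurentSeries QBar) ((κ₁ : k) : QBar)) ^ c₀ * _
    rw [algebraMap_laurent_comp, Setup.qExpand_C']
    rw [show algebraMap k (LaurentSeries QBar) (κ₁ : k) = HahnSeries.C ((κ₁ : k) : QBar) from
      algebraMap_laurent_comp _] at h1
    exact h1
  have hκ₁ : algebraMap QBar (modularFunctionFieldBar (q * M * q)) ((κ₁ : k) : QBar) ≠ 0 :=
    (_root_.map_ne_zero _).mpr fun h => κ₁.ne_zero (Subtype.ext h)
  have hw0 : w ≠ 0 := fun h0 => by
    rw [h0, zero_pow (NeZero.ne m), mul_zero] at hfw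
    exact pow_ne_zero _ hf0 hfw
  refine ⟨w, hw0, fun P => ?_⟩
  have h2 := congrArg P.ord hfw
  rw [JacTorsion.ord_pow, P.ord_mul (pow_ne_zero _ hκ₁) (pow_ne_zero _ hw0), JacTorsion.ord_pow,
    JacTorsion.ord_algebraMap, mul_zero, zero_add, JacTorsion.ord_pow, hord] at h2
  rw [Finsupp.smul_apply, nsmul_eq_mul]
  exact mul_left_cancel₀ (Nat.cast_ne_zero.mpr (NeZero.ne m)) (by linear_combination h2)

omit [NeZero n] [NeZero (q * n)] [NeZero (q * M)] [NeZero (q * M * q)] in
/-- **The bound.** -/
theorem fixedNewTorsionBound (hq : q.Prime) (hqM : ¬ q ∣ M) : FixedNewTorsionBound q M := by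
  classical
  have : Fact q.Prime := ⟨hq⟩
  refine ⟨glueExp (torusComb q) * q, Nat.mul_pos (glueExp_pos _) hq.pos,
    fun lam r hlam hne A hA x hx hinv hnew => ?_⟩
  set L : ℕ := if q = 7 then 9 else 7 with hLdef
  have hL : L = 7 ∨ L = 9 := by rw [hLdef]; split_ifs <;> simp
  have hqL : ¬ q ∣ L := fun h => by
    rw [hLdef] at h
    split_ifs at h with h7
    · subst h7; norm_num at h
    · exact h7 ((Nat.prime_dvd_prime_iff_eq hq (by norm_num)).mp h)
  have hcop : q.Coprime (L * M) := (hq.coprime_iff_not_dvd.mpr hqL).mul_right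
    (hq.coprime_iff_not_dvd.mpr hqM)
  have : NeZero (L * M) := ⟨mul_ne_zero (by rcases hL with h | h <;> omega) (NeZero.ne M)⟩
  obtain ⟨E⟩ : Nonempty (Omega.Setup (q * (L * M)) QBar) := by
    obtain ⟨η, hη⟩ := HasEnoughRootsOfUnity.exists_primitiveRoot QBar (q * (L * M))
    obtain ⟨i, -, hi⟩ := (hη.map_of_injective (f := JacTorsion.ιQ)
      JacTorsion.ιQ.injective).eq_pow_of_pow_eq_one
        (isPrimitiveRoot_zetaC (q * (L * M))).pow_eq_one
    exact ⟨⟨JacTorsion.ιQ, η ^ i, by rw [map_pow, hi]⟩⟩
  obtain ⟨D, hDx, hDfix⟩ := exists_fixed_rep hinv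
  obtain ⟨hα, hβ⟩ := hnew D hDx
  set m := lam ^ r
  have : NeZero m := ⟨pow_ne_zero _ hlam.ne_zero⟩
  have hprin : ((m : ℤ) • (D : Divisor QBar (modularFunctionFieldBar (q * M * q)))).IsPrincipal := by
    have h : Pic0.mk (m • D) = (0 : JZero (q * M * q)) := by
      rw [← hx, ← hDx]
      exact map_nsmul (QuotientAddGroup.mk' _) m D
    have h' := (QuotientAddGroup.eq_zero_iff _).mp h
    rw [natCast_zsmul]
    exact h'
  obtain ⟨f, hf0, hffix, hford⟩ := exists_fixed_fun hprin fun σ hσ => by
    rw [smul_comm, hDfix σ hσ]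
  have hp := exists_fun_pow hq (dvd_mul_left M L) hcop L hL (dvd_mul_right L M) E hA
    (Nat.Coprime.pow_left r ((Nat.coprime_primes hlam hq).mpr hne)) hDfix hf0 hffix
    (fun P => by rw [← hford P, Finsupp.smul_apply, smul_eq_mul]) hα hβ
  rw [← hDx]
  refine (map_nsmul (QuotientAddGroup.mk' _) _ D).symm.trans ((QuotientAddGroup.eq_zero_iff _).mpr ?_)
  exact hp

end Fermat.Agent.Carayol

end
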