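import Fermat.Agent.Mazur.Eisenstein.CuspFibre
import Fermat.Agent.Gamma0.Coset
import Mathlib.RingTheory.Norm.Basic

/-!
# The two degeneracy maps to level `q M` from level `q M q` have degree `q`
-/

set_option autoImplicit false

noncomputable section

namespace Fermat.Agent.Carayol

open AlgebraicCurve ModularCurve
open Fermat.Agent.Mazur.Eisenstein
open Fermat.Agent.Genus (Fbar jB)
open scoped IntermediateField

local notation "Qb" => AlgebraicClosure ℚ

variable (q M : ℕ) [hq : Fact q.Prime] [NeZero M]

/-- Both degeneracy maps from level `q M q` to level `q M` have degree `q`. -/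
theorem finrankAlong_square [NeZero (q * M * q)] :
    finrankAlong Qb (heckeAlphaBar Qb (q * M) q) = q ∧
      finrankAlong Qb (heckeBetaBar Qb (q * M) q) = q := by
  have hψ : dedekindPsi (q * M * q) = q * dedekindPsi (q * M) := by
    rw [mul_comm (q * M) q, Gamma0.dedekindPsi_mul_of_dvd hq.out (dvd_mul_right q M)]
  have hpos : 0 < dedekindPsi (q * M) := by
    rw [← ModFun.natCard_coset]; exact Nat.card_pos
  have htop := (ModFun.finrank_baseChange (q * M * q) Qb).2
  have hbot := (ModFun.finrank_baseChange (q * M) Qb).2
  refine ⟨?_, ?_⟩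
  · have hα := degree_poles_map (heckeAlphaBar Qb (q * M) q)
      (ModFun.transcendental_jBase (q * M) Qb)
    rw [show heckeAlphaBar Qb (q * M) q (ModFun.jBase (q * M) Qb) = ModFun.jBase (q * M * q) Qb from
      Subtype.ext rfl, htop, hbot, hψ] at hα
    exact (Nat.eq_of_mul_eq_mul_right hpos hα).symm
  · have hj : Module.finrank Qb⟮jB q⟯ (Fbar q) = q + 1 :=
      (ModFun.finrank_baseChange q Qb).2.trans (dedekindPsi_prime q)
    obtain ⟨e, he1, -⟩ := exists_atkinLehner q
    have hl2 := ModFun.finrank_adjoin_algEquiv e (jB q) (ModFun.finrank_baseChange q Qb).1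
    rw [he1, hj] at hl2
    have htl : Transcendental Qb (jAt q q dvd_rfl) := by
      rw [← he1]
      exact fun h => ModFun.transcendental_jBase q Qb
        ((isAlgebraic_algHom_iff e.toAlgHom e.injective).mp h)
    set i := inclLevel q (q * M * q) (dvd_mul_left q (q * M))
    have hi := degree_poles_map i (ModFun.transcendental_jBase q Qb)
    rw [show i (ModFun.jBase q Qb) = ModFun.jBase (q * M * q) Qb from Subtype.ext rfl, htop,
      show Module.finrank Qb⟮ModFun.jBase q Qb⟯ (Fbar q) = q + 1 from hj] at hi
    have hil := degree_poles_map i htl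
    rw [hl2.2] at hil
    have hβ := degree_poles_map (heckeBetaBar Qb (q * M) q)
      (ModFun.transcendental_jBase (q * M) Qb)
    rw [show heckeBetaBar Qb (q * M) q (ModFun.jBase (q * M) Qb) = i (jAt q q dvd_rfl) from
      Subtype.ext rfl, hbot, hil, ← hi, hψ] at hβ
    exact (Nat.eq_of_mul_eq_mul_right hpos hβ).symm

/-- A norm is the product of enough distinct embeddings. -/
theorem map_norm_eq_prod {F F' G ι : Type*} [Field F] [Field F'] [Field G] [CharZero F]
    [Fintype ι] [Algebra F F'] [Module.Finite F F'] (hcard : Module.finrank F F' = Fintype.card ι)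
    (base : F →+* G) (σ : ι → F' →+* G) (hbase : ∀ i y, σ i (algebraMap F F' y) = base y)
    (hinj : Function.Injective σ) (x : F') :
    base (Algebra.norm F x) = ∏ i, σ i x := by
  classical
  let E := AlgebraicClosure G
  let : Algebra F E := ((algebraMap G E).comp base).toAlgebra
  let σ' : ι → (F' →ₐ[F] E) := fun i =>
    { (algebraMap G E).comp (σ i) with
      commutes' := fun y => congrArg (algebraMap G E) (hbase i y) }
  have hinj' : Function.Injective σ' := fun i j h => hinj (RingHom.ext fun y =>
    (algebraMap G E).injective (DFunLike.congr_fun h y))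
  have hcard' : Fintype.card ι = Fintype.card (F' →ₐ[F] E) := by
    rw [AlgHom.card]; exact hcard.symm
  refine (algebraMap G E).injective
    ((Algebra.norm_eq_prod_embeddings F E x).trans ?_)
  rw [map_prod]
  exact (Fintype.prod_bijective σ' ((Fintype.bijective_iff_injective_and_card σ').mpr
    ⟨hinj', hcard'⟩) _ _ fun i => rfl).symm

end Fermat.Agent.Carayol

end
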