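import Fermat.Agent.Carayol.Norms

/-!
# Descending an `m`-th root from the field of level `q n` to level `q M q`
-/

set_option autoImplicit false
set_option linter.unusedSectionVars false

noncomputable section

open UpperHalfPlane hiding I
open Matrix CongruenceSubgroup
open scoped MatrixGroups

namespace Fermat.Agent.Carayol.Omega

open Fermat.Agent.ModFun
open ModularCurve (coeffMap qExpand jqModC divisorExpansionsC)

local notation "Qb" => AlgebraicClosure ℚ

namespace Setup

variable {q n M : ℕ} [NeZero (q * n)] [NeZero q] [NeZero n] [NeZero M] (E : Setup (q * n) Qb)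
  {P : ZMod (q * n) × ZMod (q * n)} (hP : GoodPt P) (hcop : q.Coprime n) (hq : q.Prime)
  (hM : M ∣ n) (k : Type*) [Field k] [Algebra k Qb]

theorem crt_redMat (γ : SL(2, ℤ)) (i j : Fin 2) :
    (crt hcop (redMat (q * n) γ i j)).1 = ((γ i j : ℤ) : ZMod q) := by
  rw [redMat, Matrix.map_apply, map_intCast, Prod.fst_intCast]

/-- A substitution fixing `j (q²τ/q)` has lower left entry divisible by `q`. -/
theorem crt_eq_zero_of_fix_lower (γ : SL(2, ℤ)) {e : E.field k ≃ₐ[k] E.field k}
    (he : E.Moves k e (redMat (q * n) γ)) {y : E.field k}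
    (hy : (y : LaurentSeries Qb) = qExpand Qb n (qExpand Qb (q * q) (jqModC Qb)))
    (hfix : e y = y) : (crt hcop (redMat (q * n) γ 1 0)).1 = 0 := by
  obtain ⟨hmem, hser⟩ := E.exists_jUV 1 q (one_dvd _)
  have : NeZero (q * n / 1 * q) := ⟨by rw [Nat.div_one]; exact mul_ne_zero (NeZero.ne _) (NeZero.ne _)⟩
  have h : (1 : SL(2, ℤ)) * γ * 1⁻¹ ∈ Gamma0 q := by
    refine E.conj_mem_Gamma0_of_fix k (dvd_mul_right q n) 1 γ ⟨_, hmem⟩
      (fun τ => by rw [one_smul]; rfl) he (x := y) ?_ hfix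
    rw [hy, hser, ModularCurve.qExpand_qExpand]
    exact ModularCurve.qExpand_congr (by rw [Nat.div_one]; ring) _
  rw [one_mul, inv_one, mul_one, Gamma0_mem] at h
  rw [crt_redMat]
  exact h

/-- A substitution fixing `j (τ/q)` has upper right entry divisible by `q`. -/
theorem crt_eq_zero_of_fix_upper (γ : SL(2, ℤ)) {e : E.field k ≃ₐ[k] E.field k}
    (he : E.Moves k e (redMat (q * n) γ)) {y : E.field k}
    (hy : (y : LaurentSeries Qb) = qExpand Qb n (jqModC Qb))
    (hfix : e y = y) : (crt hcop (redMat (q * n) γ 0 1)).1 = 0 := by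
  obtain ⟨hmem, hser⟩ := E.exists_jUV q 1 (dvd_mul_right q n)
  have : NeZero (q * n / q * 1) :=
    ⟨by rw [Nat.mul_div_cancel_left n (NeZero.pos q), mul_one]; exact NeZero.ne n⟩
  have h : ModularGroup.S * γ * ModularGroup.S⁻¹ ∈ Gamma0 q := by
    refine E.conj_mem_Gamma0_of_fix k (dvd_mul_right q n) ModularGroup.S γ ⟨_, hmem⟩
      (fun τ => ?_) he (x := y) ?_ hfix
    · show jH (affine 1 0 q τ) = _
      rw [← jH_smul ModularGroup.S (scaleH q (ModularGroup.S • τ))]
      congr 1
      apply UpperHalfPlane.ext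
      have hq : (q : ℂ) ≠ 0 := Nat.cast_ne_zero.mpr (NeZero.ne q)
      have hτ : (τ : ℂ) ≠ 0 := τ.ne_zero
      rw [UpperHalfPlane.modular_S_smul, coe_affine]
      simp only [coe_scaleH, UpperHalfPlane.modular_S_smul, Nat.cast_one,
        Int.cast_zero, one_mul, add_zero]
      field_simp
    · rw [hy, hser]
      exact ModularCurve.qExpand_congr
        (by rw [Nat.mul_div_cancel_left n (NeZero.pos q), mul_one]) _
  rw [Gamma0_mem] at h
  have e' : ((ModularGroup.S * γ * ModularGroup.S⁻¹ : SL(2, ℤ)) 1 0 : ℤ) = -(γ 0 1) := by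
    rw [Matrix.SpecialLinearGroup.coe_mul, Matrix.SpecialLinearGroup.coe_mul,
      Matrix.SpecialLinearGroup.coe_inv, ModularGroup.coe_S]
    simp [Matrix.adjugate_fin_two, Matrix.mul_apply, Matrix.vecMul, dotProduct, Fin.sum_univ_two]
  rw [e', Int.cast_neg, neg_eq_zero] at h
  rw [crt_redMat]
  exact h

include hP hcop hq hM

/-- An automorphism fixing level `q M q` moves labels by a matrix diagonal modulo `q`. -/
theorem exists_moves_diag [IsGalois k Qb] (hζ : ∃ c : k, algebraMap k Qb c = E.ζ ^ q)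
    (act : GL (Fin 2) (ZMod q) → (E.field k ≃ₐ[k] E.field k))
    (hact : ∀ g : GL (Fin 2) (ZMod q),
      E.Moves k (act g) (liftMat hcop (g : Matrix (Fin 2) (Fin 2) (ZMod q))))
    {e : E.field k ≃ₐ[k] E.field k}
    (hfix : ∀ (d : ℕ) [NeZero d], d ∣ q * M * q → ∀ y : E.field k,
      (y : LaurentSeries Qb) = qExpand Qb n (qExpand Qb d (jqModC Qb)) → e y = y) :
    ∃ A : Matrix (Fin 2) (Fin 2) (ZMod (q * n)), E.Moves k e A ∧
      (crt hcop (A 0 1)).1 = 0 ∧ (crt hcop (A 1 0)).1 = 0 := by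
  have : Fact q.Prime := ⟨hq⟩
  obtain ⟨A, hA⟩ := E.exists_moves_of_fj k (e := e) (hfix q (dvd_mul_left q (q * M)) _ (by
    rw [coe_fj, ModularCurve.qExpand_qExpand]
    exact ModularCurve.qExpand_congr (mul_comm q n) _))
  obtain ⟨hAu, hz, -⟩ := id hA
  refine ⟨A, hA, ?_⟩
  have hdet : IsUnit A.det := (Matrix.isUnit_iff_isUnit_det _).mp hAu
  have h2 : (crt hcop A.det).2 = 1 := by
    obtain ⟨c, hc⟩ := hζ
    have h1 : E.fz k ((q : ℕ) : ZMod (q * n)) = algebraMap k (E.field k) c := Subtype.ext (by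
      show HahnSeries.C (E.ζ ^ ((q : ℕ) : ZMod (q * n)).val) = algebraMap k (LaurentSeries Qb) c
      rw [algebraMap_laurent_comp, hc, ZMod.val_natCast]
      exact congrArg _ (pow_eq_pow_mod q E.isPrimitiveRoot.pow_eq_one).symm)
    have h3 := hz ((q : ℕ) : ZMod (q * n))
    rw [h1, AlgEquiv.commutes, ← h1] at h3
    have h4 := congrArg (fun z => (crt hcop z).2)
      (E.zeta_pow_inj (HahnSeries.C_injective (congrArg Subtype.val h3)))
    simp only [map_mul, map_natCast, Prod.snd_mul, Prod.snd_natCast] at h4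
    have hu : IsUnit ((q : ℕ) : ZMod n) := (ZMod.isUnit_iff_coprime q n).mpr hcop
    exact hu.mul_right_cancel (by rw [one_mul]; exact h4.symm)
  obtain ⟨w, hw⟩ := (hdet.map (crt hcop)).map (RingHom.fst (ZMod q) (ZMod n))
  set g : GL (Fin 2) (ZMod q) := diagElt 1 w⁻¹ with hg
  have hg' : (g : Matrix (Fin 2) (Fin 2) (ZMod q)) = !![1, 0; 0, (↑w⁻¹ : ZMod q)] := by
    rw [hg]
    show !![((1 : (ZMod q)ˣ) : ZMod q), 0; 0, (↑w⁻¹ : ZMod q)] = _
    rw [Units.val_one]
  set B := A * liftMat hcop (g : Matrix (Fin 2) (Fin 2) (ZMod q)) with hB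
  have hmv : E.Moves k (act g * e) B := (hact g).mul hA
  obtain ⟨γ, hγ⟩ := exists_redMat_eq (M := B) (by
    apply (crt hcop).injective
    rw [hB, Matrix.det_mul, map_mul, crt_det_liftMat, map_one, hg']
    refine Prod.ext ?_ ?_
    · rw [Prod.fst_mul, Matrix.det_fin_two_of, one_mul, mul_zero, sub_zero,
        show (crt hcop A.det).1 = (w : ZMod q) from hw.symm, Units.mul_inv]
      rfl
    · rw [Prod.snd_mul, h2, one_mul]
      rfl)
  rw [← hγ] at hmv
  have hfixg : ∀ (d : ℕ) [NeZero d], d ∣ q * M * q → ∀ y : E.field k,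
      (y : LaurentSeries Qb) = qExpand Qb n (qExpand Qb d (jqModC Qb)) → (act g * e) y = y := by
    intro d _ hd y hy
    rw [AlgEquiv.mul_apply, hfix d hd y hy]
    exact E.fixed_diag hP hcop hq hM hd (by rw [hg']; rfl) (by rw [hg']; rfl) (hact g) hy
  have hmem := fun d [NeZero d] (hd : d ∣ q * M * q) => E.qExpand_jd_mem k hP hcop hq hM hd
  have hl := E.crt_eq_zero_of_fix_lower hcop k γ hmv (y := ⟨_, hmem (q * q)
    (mul_dvd_mul (dvd_mul_right q M) dvd_rfl)⟩) rfl
    (hfixg (q * q) (mul_dvd_mul (dvd_mul_right q M) dvd_rfl) _ rfl)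
  have hu := E.crt_eq_zero_of_fix_upper hcop k γ hmv
    (y := ⟨_, hmem 1 (one_dvd _)⟩)
    (congrArg (qExpand Qb n) (ModularCurve.qExpand_one_apply _))
    (hfixg 1 (one_dvd _) _ rfl)
  rw [hγ, hB] at hl hu
  simp only [Matrix.mul_apply, Fin.sum_univ_two, map_add, map_mul, crt_liftMat, Prod.fst_add,
    Prod.fst_mul, hg', Matrix.of_apply, Matrix.cons_val', Matrix.cons_val_zero, Matrix.cons_val_one,
    Matrix.cons_val_fin_one, mul_one, mul_zero, add_zero, zero_add] at hl hu
  replace hu := (IsUnit.mul_left_eq_zero w⁻¹.isUnit).mp hu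
  exact ⟨hu, hl⟩

/-- **Descent.** If the `m`-th power of `h` has level `q M q` then so has the quotient of `h ^ q`
by its product over the upper unipotent group. -/
theorem exists_descended [IsGalois k Qb] (hζ : ∃ c : k, algebraMap k Qb c = E.ζ ^ q)
    (act : GL (Fin 2) (ZMod q) → (E.field k ≃ₐ[k] E.field k))
    (hact : ∀ g : GL (Fin 2) (ZMod q),
      E.Moves k (act g) (liftMat hcop (g : Matrix (Fin 2) (Fin 2) (ZMod q))))
    {m : ℕ} [NeZero m] {ω : k} (hω : IsPrimitiveRoot ω m) {h : E.field k} (h0 : h ≠ 0)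
    (hpow : ∃ z ∈ IntermediateField.adjoin k (divisorExpansionsC Qb (q * M * q)),
      qExpand Qb n z = ((h ^ m : E.field k) : LaurentSeries Qb)) :
    ∃ z ∈ IntermediateField.adjoin k (divisorExpansionsC Qb (q * M * q)),
      qExpand Qb n z = ((h ^ q / ∏ a, act (uPlus a) h : E.field k) : LaurentSeries Qb) := by
  have : Fact q.Prime := ⟨hq⟩
  let r : LaurentSeries Qb →ₐ[k] LaurentSeries Qb :=
    { qExpand Qb n with
      commutes' := fun c => by
        show qExpand Qb n (algebraMap k (LaurentSeries Qb) c) = _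
        rw [algebraMap_laurent_comp, qExpand_C'] }
  set S := IntermediateField.adjoin k (divisorExpansionsC Qb (q * M * q))
  let F : IntermediateField k (E.field k) := (S.map r).comap (E.field k).val
  suffices hmem : h ^ q / ∏ a, act (uPlus a) h ∈ F by
    obtain ⟨z, hz, hzeq⟩ := hmem
    exact ⟨z, hz, hzeq⟩
  have hle : E.base k ≤ F := by
    rw [base, IntermediateField.adjoin_le_iff, Set.singleton_subset_iff]
    refine ⟨qExpand Qb q (jqModC Qb),
      IntermediateField.subset_adjoin k _ ⟨q, ⟨hq.ne_zero⟩, dvd_mul_left q (q * M), rfl⟩, ?_⟩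
    show qExpand Qb n (qExpand Qb q (jqModC Qb)) = (E.fj k : LaurentSeries Qb)
    rw [coe_fj, ModularCurve.qExpand_qExpand]
    exact ModularCurve.qExpand_congr (mul_comm n q) _
  haveI := E.finiteDimensional_base k
  haveI := E.isGalois_base k
  rw [← IntermediateField.mem_extendScalars hle,
    ← IsGalois.fixedField_fixingSubgroup (IntermediateField.extendScalars hle),
    IntermediateField.mem_fixedField_iff]
  intro e' he'
  rw [IntermediateField.mem_fixingSubgroup_iff] at he'
  set e := e'.restrictScalars k with he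
  show e _ = _
  have hF : ∀ y ∈ F, e y = y := fun y hy =>
    he' y ((IntermediateField.mem_extendScalars hle).mpr hy)
  obtain ⟨A, hA, h01, h10⟩ := E.exists_moves_diag hP hcop hq hM k hζ act hact (e := e)
    fun d hd hdN y hy => hF y ⟨_, IntermediateField.subset_adjoin k _ ⟨d, hd, hdN, rfl⟩, hy.symm⟩
  obtain ⟨z, hz, hzeq⟩ := hpow
  have hm : (e h / h) ^ m = 1 := by
    rw [div_pow, ← map_pow, hF _ (show h ^ m ∈ F from ⟨z, hz, hzeq⟩), div_self (pow_ne_zero _ h0)]
  obtain ⟨i, -, hi⟩ :=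
    (hω.map_of_injective (algebraMap k (E.field k)).injective).eq_pow_of_pow_eq_one hm
  set χ : E.field k := e h / h with hχ
  have heh : e h = χ * h := (div_mul_cancel₀ _ h0).symm
  have hχfix : ∀ f : E.field k ≃ₐ[k] E.field k, f χ = χ := fun f => by
    rw [← hi, map_pow, AlgEquiv.commutes]
  have hχ0 : χ ≠ 0 := div_ne_zero ((_root_.map_ne_zero e).mpr h0) h0
  obtain ⟨hAu, -, -⟩ := id hA
  have hunit := ((Matrix.isUnit_iff_isUnit_det _).mp hAu).map
    ((RingHom.fst (ZMod q) (ZMod n)).comp (crt hcop).toRingHom)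
  simp only [RingHom.comp_apply, RingEquiv.toRingHom_eq_coe, RingEquiv.coe_toRingHom,
    RingHom.coe_fst, Matrix.det_fin_two, map_sub, map_mul, Prod.fst_sub, Prod.fst_mul, h01, h10,
    mul_zero, sub_zero] at hunit
  obtain ⟨α, hα⟩ := isUnit_of_mul_isUnit_left hunit
  obtain ⟨δ, hδ⟩ := isUnit_of_mul_isUnit_right hunit
  have hconj : ∀ a : ZMod q,
      e (act (uPlus a) h) = χ * act (uPlus (a * ((α * δ⁻¹ : (ZMod q)ˣ) : ZMod q))) h := by
    intro a
    have h1 := hA.mul (hact (uPlus a))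
    have h2 := (hact (uPlus (a * ((α * δ⁻¹ : (ZMod q)ˣ) : ZMod q)))).mul hA
    have hmat : A * liftMat hcop (uPlus (a * ((α * δ⁻¹ : (ZMod q)ˣ) : ZMod q)) : Matrix (Fin 2) (Fin 2) (ZMod q))
        = liftMat hcop (uPlus a : Matrix (Fin 2) (Fin 2) (ZMod q)) * A := by
      ext i j
      apply (crt hcop).injective
      simp only [Matrix.mul_apply, Fin.sum_univ_two, map_add, map_mul, crt_liftMat]
      have e00 : (crt hcop (A 0 0)).1 = (α : ZMod q) := hα.symm
      have e11 : (crt hcop (A 1 1)).1 = (δ : ZMod q) := hδ.symm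
      have key : (δ : ZMod q) * (a * ((α * δ⁻¹ : (ZMod q)ˣ) : ZMod q)) = a * (α : ZMod q) := by
        rw [mul_left_comm, Units.val_mul, mul_left_comm (δ : ZMod q), Units.mul_inv, mul_one]
      refine Prod.ext ?_ ?_ <;>
        simp only [uPlus, Prod.fst_add, Prod.fst_mul, Prod.snd_add, Prod.snd_mul, Matrix.of_apply,
          Matrix.cons_val', Matrix.cons_val_fin_one] <;>
        fin_cases i <;> fin_cases j <;>
        simp only [Fin.zero_eta, Fin.mk_one, Fin.isValue, Matrix.cons_val_zero, Matrix.cons_val_one,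
          Matrix.one_apply_eq, Matrix.one_apply_ne, ne_eq, zero_ne_one, one_ne_zero, not_false_eq_true,
          h01, h10, e00, e11, mul_one, one_mul, mul_zero, zero_mul, add_zero, zero_add]
      · exact key
      all_goals exact mul_comm _ _
    rw [hmat] at h2
    rw [← AlgEquiv.mul_apply, h1.ext h2, AlgEquiv.mul_apply, heh, map_mul, hχfix]
  rw [map_div₀, map_pow, heh, map_prod]
  simp only [hconj, Finset.prod_mul_distrib, Finset.prod_const, Finset.card_univ, ZMod.card]
  rw [mul_pow]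
  erw [Equiv.prod_comp (Units.mulRight (α * δ⁻¹)) (fun a => act (uPlus a) h)]
  exact mul_div_mul_left _ _ (pow_ne_zero _ hχ0)

end Setup

end Fermat.Agent.Carayol.Omega

end
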