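import Fermat.Agent.Carayol.Degree
import Fermat.Agent.Carayol.Omega.Maps
import Fermat.Agent.ModFun.Field

/-!
# The norms of the degeneracy maps are the products over the unipotent subgroups
-/

set_option autoImplicit false
set_option linter.unusedSectionVars false

noncomputable section

open UpperHalfPlane hiding I
open Matrix AlgebraicCurve
open scoped MatrixGroups

namespace Fermat.Agent.Carayol.Omega

open Fermat.Agent.ModFun
open ModularCurve (coeffMap qExpand jqModC modularFunctionFieldBar divisorExpansionsC)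

local notation "Qb" => AlgebraicClosure ℚ

theorem uPlus_add {q : ℕ} (a b : ZMod q) : uPlus (a + b) = uPlus a * uPlus b := by
  apply Units.ext
  simp [uPlus, add_comm]

theorem uMinus_add {q : ℕ} (a b : ZMod q) : uMinus (a + b) = uMinus a * uMinus b := by
  apply Units.ext
  simp [uMinus]

theorem det_uPlus {q : ℕ} (a : ZMod q) :
    ((uPlus a : GL (Fin 2) (ZMod q)) : Matrix (Fin 2) (Fin 2) (ZMod q)).det = 1 := by
  simp [uPlus, Matrix.det_fin_two]

theorem det_uMinus {q : ℕ} (a : ZMod q) :
    ((uMinus a : GL (Fin 2) (ZMod q)) : Matrix (Fin 2) (Fin 2) (ZMod q)).det = 1 := by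
  simp [uMinus, Matrix.det_fin_two]

namespace Setup

section Subst

variable {n : ℕ} [NeZero n] {K : Type*} [Field K] [CharZero K] (E : Setup n K)

/-- Substitution only depends on the series. -/
theorem substHom_congr (k k' : Type*) [Field k] [Algebra k K] [Field k'] [Algebra k' K]
    (γ : SL(2, ℤ)) (x : E.field k) (x' : E.field k')
    (h : (x : LaurentSeries K) = (x' : LaurentSeries K)) :
    E.substHom k γ x = E.substHom k' γ x' := by
  show E.fracPull γ (E.toFrac k x) = E.fracPull γ (E.toFrac k' x')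
  congr 1
  exact E.fracSer.injective (by rw [fracSer_toFrac, fracSer_toFrac, h])

/-- A ring map fixing constants sends an adjunction into the fixed elements once it does so for
the generators. -/
theorem fixed_adjoin (k : Type*) [Field k] [Algebra k K] (e : E.field k ≃ₐ[k] E.field k)
    (r : LaurentSeries K →+* LaurentSeries K) (hr : ∀ a, r (HahnSeries.C a) = HahnSeries.C a)
    {S : Set (LaurentSeries K)}
    (hS : ∀ s ∈ S, ∃ y : E.field k, (y : LaurentSeries K) = r s ∧ e y = y)
    {x : LaurentSeries K} (hx : x ∈ IntermediateField.adjoin k S) :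
    ∃ y : E.field k, (y : LaurentSeries K) = r x ∧ e y = y := by
  induction hx using IntermediateField.adjoin_induction with
  | mem z hz => exact hS z hz
  | algebraMap c =>
    refine ⟨algebraMap k (E.field k) c, ?_, e.commutes c⟩
    show algebraMap k (LaurentSeries K) c = _
    rw [algebraMap_laurent_comp, hr]
  | add a b _ _ ha hb =>
    obtain ⟨y, hy, hy'⟩ := ha
    obtain ⟨z, hz, hz'⟩ := hb
    exact ⟨y + z, by rw [map_add, ← hy, ← hz]; rfl, by rw [map_add, hy', hz']⟩
  | inv a _ ha =>
    obtain ⟨y, hy, hy'⟩ := ha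
    exact ⟨y⁻¹, by rw [map_inv₀, ← hy]; rfl, by rw [map_inv₀, hy']⟩
  | mul a b _ _ ha hb =>
    obtain ⟨y, hy, hy'⟩ := ha
    obtain ⟨z, hz, hz'⟩ := hb
    exact ⟨y * z, by rw [map_mul, ← hy, ← hz]; rfl, by rw [map_mul, hy', hz']⟩

end Subst

theorem qExpand_C' {K : Type*} [Field K] (n : ℕ) [NeZero n] (a : K) :
    qExpand K n (HahnSeries.C a) = HahnSeries.C a := by
  rw [HahnSeries.C_apply, ModularCurve.qExpand_single, mul_zero]

theorem mem_adjoin_bar (N : ℕ) [NeZero N] (x : modularFunctionFieldBar N) :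
    (x : LaurentSeries Qb) ∈ IntermediateField.adjoin Qb (divisorExpansionsC Qb N) := by
  have h := x.2
  simp only [modularFunctionFieldBar, ModFun.laurentBaseChange_eq_fullC] at h
  exact h

variable {q n M : ℕ} [NeZero (q * n)] [NeZero q] [NeZero n] [NeZero M] (E : Setup (q * n) Qb)
  {P : ZMod (q * n) × ZMod (q * n)} (hP : GoodPt P) (hcop : q.Coprime n) (hq : q.Prime)
  (hM : M ∣ n)

theorem exists_redMat_lift {g : GL (Fin 2) (ZMod q)}
    (hg : (g : Matrix (Fin 2) (Fin 2) (ZMod q)).det = 1) :
    ∃ γ : SL(2, ℤ), redMat (q * n) γ = liftMat hcop (g : Matrix (Fin 2) (Fin 2) (ZMod q)) :=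
  exists_redMat_eq (by
    apply (crt hcop).injective
    rw [crt_det_liftMat, hg, map_one]
    rfl)

include hP hcop hq hM

/-- An automorphism fixing the generators fixes a level inside `qExpand n`. -/
theorem fixed_level (k : Type*) [Field k] [Algebra k Qb] (e : E.field k ≃ₐ[k] E.field k)
    (N : ℕ) (r : LaurentSeries Qb →+* LaurentSeries Qb)
    (hr : ∀ a, r (HahnSeries.C a) = HahnSeries.C a) (c : ℕ) (hc : c * N ∣ q * M * q) [NeZero c]
    (hr' : ∀ x, r x = qExpand Qb n (qExpand Qb c x))
    (he : ∀ (d : ℕ) [NeZero d], d ∣ N → ∀ y : E.field k,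
      (y : LaurentSeries Qb) = qExpand Qb n (qExpand Qb (c * d) (jqModC Qb)) → e y = y)
    {x : LaurentSeries Qb} (hx : x ∈ IntermediateField.adjoin k (divisorExpansionsC Qb N)) :
    ∃ y : E.field k, (y : LaurentSeries Qb) = r x ∧ e y = y := by
  refine E.fixed_adjoin k e r hr (fun s hs => ?_) hx
  obtain ⟨d, hd, hdN, rfl⟩ := hs
  have := hd
  have hmem := E.qExpand_jd_mem k hP hcop hq hM (d := c * d) ((mul_dvd_mul_left c hdN).trans hc)
  refine ⟨⟨_, hmem⟩, ?_, he d hdN _ rfl⟩
  show qExpand Qb n (qExpand Qb (c * d) (jqModC Qb)) = _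
  rw [hr']
  exact congrArg (qExpand Qb n) (by rw [ModularCurve.qExpand_qExpand])

/-- The level `q M q` inside the field of level `q n`. -/
theorem qExpand_mem (k : Type*) [Field k] [Algebra k Qb] {x : LaurentSeries Qb}
    (hx : x ∈ IntermediateField.adjoin k (divisorExpansionsC Qb (q * M * q))) :
    qExpand Qb n x ∈ E.field k := by
  obtain ⟨y, hy, -⟩ := E.fixed_level hP hcop hq hM k 1 (q * M * q) (qExpand Qb n) (qExpand_C' n) 1
    (by rw [one_mul]) (fun x => by rw [ModularCurve.qExpand_one_apply]) (fun _ _ _ _ _ => rfl) hx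
  exact hy ▸ y.2

/-- **The norm along a degeneracy map as a product over a unipotent subgroup.** -/
theorem qExpand_norm [NeZero (q * M * q)]
    (ψ : modularFunctionFieldBar (q * M) →ₐ[Qb] modularFunctionFieldBar (q * M * q))
    (hdeg : finrankAlong Qb ψ = q) (u : ZMod q → GL (Fin 2) (ZMod q))
    (hu : ∀ a b, u (a + b) = u a * u b)
    (hdet : ∀ a, (u a : Matrix (Fin 2) (Fin 2) (ZMod q)).det = 1)
    (hfix : ∀ a (e : E.field Qb ≃ₐ[Qb] E.field Qb),
      E.Moves Qb e (liftMat hcop (u a : Matrix (Fin 2) (Fin 2) (ZMod q))) →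
      ∀ z, ∃ y : E.field Qb, (y : LaurentSeries Qb) = qExpand Qb n (ψ z : LaurentSeries Qb) ∧
        e y = y)
    (θ : modularFunctionFieldBar (q * M * q))
    (hθ : ∀ a (e : E.field Qb ≃ₐ[Qb] E.field Qb),
      E.Moves Qb e (liftMat hcop (u a : Matrix (Fin 2) (Fin 2) (ZMod q))) →
      ∀ y : E.field Qb, (y : LaurentSeries Qb) = qExpand Qb n (θ : LaurentSeries Qb) →
        e y = y → a = 0)
    (k : Type*) [Field k] [Algebra k Qb] (act : ZMod q → (E.field k ≃ₐ[k] E.field k))
    (hact : ∀ a, E.Moves k (act a) (liftMat hcop (u a : Matrix (Fin 2) (Fin 2) (ZMod q))))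
    (x : modularFunctionFieldBar (q * M * q)) (y : E.field k)
    (hy : (y : LaurentSeries Qb) = qExpand Qb n (x : LaurentSeries Qb)) :
    qExpand Qb n ((ψ (letI := algebraAlong ψ; Algebra.norm (modularFunctionFieldBar (q * M)) x) :
        modularFunctionFieldBar (q * M * q)) : LaurentSeries Qb) =
      ∏ a, ((act a y : E.field k) : LaurentSeries Qb) := by
  have : NeZero (q * M) := ⟨left_ne_zero_of_mul (NeZero.ne (q * M * q))⟩
  letI := algebraAlong ψ
  haveI := isScalarTower_along ψ
  haveI : Module.Finite (modularFunctionFieldBar (q * M)) (modularFunctionFieldBar (q * M * q)) :=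
    FF.finiteAlong ψ
  choose γ hγ using fun a => exists_redMat_lift (n := n) hcop (hdet a)
  choose e he hval using fun a => E.exists_moves_subst Qb (γ a)
  have he' : ∀ a, E.Moves Qb (e a) (liftMat hcop (u a : Matrix (Fin 2) (Fin 2) (ZMod q))) :=
    fun a => hγ a ▸ he a
  let incl : modularFunctionFieldBar (q * M * q) →+* E.field Qb :=
    ((qExpand Qb n).comp (modularFunctionFieldBar (q * M * q)).val.toRingHom).codRestrict
      (E.field Qb).toSubfield fun z => E.qExpand_mem hP hcop hq hM Qb (mem_adjoin_bar _ z)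
  let σ : ZMod q → (modularFunctionFieldBar (q * M * q) →+* LaurentSeries Qb) :=
    fun a => (E.substHom Qb (γ a)).toRingHom.comp incl
  have hσ : ∀ a z, σ a z = ((e a (incl z) : E.field Qb) : LaurentSeries Qb) :=
    fun a z => (hval a _).symm
  have hσy : ∀ a, σ a x = ((act a y : E.field k) : LaurentSeries Qb) := fun a => by
    obtain ⟨e', he'', hval'⟩ := E.exists_moves_subst k (γ a)
    rw [(hact a).ext (hγ a ▸ he''), hval']
    exact E.substHom_congr Qb k (γ a) (incl x) y hy.symm
  simp only [← hσy]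
  refine map_norm_eq_prod (hdeg.trans (ZMod.card q).symm)
    ((qExpand Qb n).comp ((modularFunctionFieldBar (q * M * q)).val.toRingHom.comp ψ.toRingHom))
    σ (fun a z => ?_) (fun a b hab => ?_) x
  · obtain ⟨w, hw, hw'⟩ := hfix a (e a) (he' a) z
    rw [hσ]
    have : incl (ψ z) = w := Subtype.ext hw.symm
    show ((e a (incl (ψ z)) : E.field Qb) : LaurentSeries Qb) = _
    rw [this, hw', hw]
    rfl
  · have h1 : e a (incl θ) = e b (incl θ) :=
      Subtype.ext (by rw [← hσ, ← hσ, hab])
    have h2 : e a = e b * e (a - b) := by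
      refine (he' a).ext ?_
      have h3 := (he' b).mul (he' (a - b))
      rwa [← liftMat_mul, ← Units.val_mul, ← hu, add_sub_cancel] at h3
    rw [h2, AlgEquiv.mul_apply] at h1
    exact sub_eq_zero.1 (hθ _ _ (he' _) _ rfl ((e b).injective h1))

end Setup

end Fermat.Agent.Carayol.Omega

end
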